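import Mathlib.NumberTheory.Padics.RingHoms

/-!
# `ℤ_p` as the limit of `ℤ/pⁿ`
-/

set_option autoImplicit false

namespace FLTAgent.Tate

variable {p : ℕ} [hp : Fact p.Prime]

theorem exists_padicInt_of_compat (x : ∀ n : ℕ, ZMod (p ^ n))
    (hx : ∀ n, ZMod.castHom (pow_dvd_pow p (Nat.le_succ n)) (ZMod (p ^ n)) (x (n + 1)) = x n) :
    ∃ z : ℤ_[p], ∀ n, PadicInt.toZModPow n z = x n := by
  have hne : ∀ n, NeZero (p ^ n) := fun n => ⟨pow_ne_zero n hp.out.ne_zero⟩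
  have hall : ∀ m n, ∀ h : m ≤ n, ZMod.castHom (pow_dvd_pow p h) (ZMod (p ^ m)) (x n) = x m := by
    intro m n h
    induction n, h using Nat.le_induction with
    | base => simp
    | succ n h ih =>
      rw [← ih, ← hx n, ← RingHom.comp_apply, ZMod.castHom_comp]
  have hcs : ∀ m n : ℕ, m ≤ n → ((x m).val : ℤ_[p]) ≡ ((x n).val : ℤ_[p])
      [SMOD (IsLocalRing.maximalIdeal ℤ_[p] ^ m • ⊤ : Submodule ℤ_[p] ℤ_[p])] := by
    intro m n h
    rw [SModEq.sub_mem, smul_eq_mul, Ideal.mul_top, PadicInt.maximalIdeal_eq_span_p,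
      Ideal.span_singleton_pow, ← PadicInt.ker_toZModPow, RingHom.mem_ker, map_sub, map_natCast,
      map_natCast, ZMod.natCast_zmod_val, sub_eq_zero, ← hall m n h, ZMod.castHom_apply,
      ZMod.natCast_val]
  obtain ⟨z, hz⟩ := IsPrecomplete.prec (inferInstance : IsPrecomplete
    (IsLocalRing.maximalIdeal ℤ_[p]) ℤ_[p]) (f := fun n => ((x n).val : ℤ_[p])) (fun {m n} h => hcs m n h)
  refine ⟨z, fun n => ?_⟩
  have h := hz n
  rw [SModEq.sub_mem, smul_eq_mul, Ideal.mul_top, PadicInt.maximalIdeal_eq_span_p,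
    Ideal.span_singleton_pow, ← PadicInt.ker_toZModPow, RingHom.mem_ker, map_sub, map_natCast,
    ZMod.natCast_zmod_val, sub_eq_zero] at h
  exact h.symm

end FLTAgent.Tate
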