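import Fermat.Agent.Tate.Basis
import Fermat.Agent.Tate.Limit
import Fermat.Agent.Tate.Frobenius
import Fermat.Agent.GalRep.AdicRep
import Fermat.Agent.GalRep.Cyclo
import Fermat.Agent.Reduction.Inertia
import Fermat.Agent.Torsion.Galois
import Fermat.Prelude.Def_GaloisRep_LocalConditions
import Mathlib.Algebra.Algebra.Rat

/-!
# The `p`-adic Tate module of an integral Weierstrass model as a Galois representation
-/

set_option autoImplicit false

open scoped WeierstrassCurve.Affine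
open WeierstrassCurve WeierstrassCurve.Affine Polynomial

namespace FLTAgent.Tate

noncomputable section

local notation "Qbar" => AlgebraicClosure ℚ
local notation "Γℚ" => AlgebraicClosure ℚ ≃ₐ[ℚ] AlgebraicClosure ℚ

variable {W : WeierstrassCurve ℤ} (hΔ : W.Δ ≠ 0) (p : ℕ) [hp : Fact p.Prime]

/-- The action on `E[p ^ n]`. -/
abbrev levRep (W : WeierstrassCurve ℤ) (p n : ℕ) : Γℚ →* Module.End (ZMod (p ^ n)) (lev W p n) :=
  Point.galoisRepModuleEnd (S := ℚ) (K := Qbar) (W.map (Int.castRingHom ℚ)).toAffine (p ^ n)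

/-- The matrix of the action on `E[p ^ n]`. -/
def levMat (n : ℕ) : Γℚ →* Matrix (Fin 2) (Fin 2) (ZMod (p ^ n)) :=
  (MonoidHomClass.toMonoidHom (LinearMap.toMatrixAlgEquiv (levBasis hΔ p n))).comp (levRep W p n)

theorem levMat_apply (n : ℕ) (σ : Γℚ) :
    levMat hΔ p n σ = LinearMap.toMatrix (levBasis hΔ p n) (levBasis hΔ p n) (levRep W p n σ) := rfl

theorem smul_vec (n : ℕ) (σ : Γℚ) (j : Fin 2) :
    σ • vec hΔ p n j =
      levMat hΔ p n σ 0 j • vec hΔ p n 0 + levMat hΔ p n σ 1 j • vec hΔ p n 1 := by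
  have h := (levBasis hΔ p n).sum_repr (levRep W p n σ (levBasis hΔ p n j))
  rw [Fin.sum_univ_two] at h
  rw [levMat_apply, LinearMap.toMatrix_apply, LinearMap.toMatrix_apply]
  simp only [levBasis_apply] at h ⊢
  exact h.symm

theorem levMat_compat (n : ℕ) (σ : Γℚ) :
    (ZMod.castHom (pow_dvd_pow p (Nat.le_succ n)) (ZMod (p ^ n))).mapMatrix (levMat hΔ p (n + 1) σ)
      = levMat hΔ p n σ := by
  have hne : ∀ m, NeZero (p ^ m) := fun m => ⟨pow_ne_zero m hp.out.ne_zero⟩
  refine Matrix.ext fun i j => ?_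
  set c := ZMod.castHom (pow_dvd_pow p (Nat.le_succ n)) (ZMod (p ^ n))
  have h1 := congrArg (fun x : lev W p (n + 1) => p • (x : Pt W)) (smul_vec hΔ p (n + 1) σ j)
  have key : σ • vec hΔ p n j = c (levMat hΔ p (n + 1) σ 0 j) • vec hΔ p n 0 +
      c (levMat hΔ p (n + 1) σ 1 j) • vec hΔ p n 1 := by
    have hc : ∀ (a : ZMod (p ^ (n + 1))) (x : lev W p n), c a • x = a.val • x := fun a x => by
      conv_lhs => rw [← ZMod.natCast_zmod_val a, map_natCast, Nat.cast_smul_eq_nsmul]
    refine Subtype.ext ?_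
    rw [hc, hc]
    show σ • (vec hΔ p n j : Pt W) =
      (levMat hΔ p (n + 1) σ 0 j).val • (vec hΔ p n 0 : Pt W) +
        (levMat hΔ p (n + 1) σ 1 j).val • (vec hΔ p n 1 : Pt W)
    rw [Submodule.coe_add, coe_zmod_smul, coe_zmod_smul, nsmul_add, smul_comm p,
      smul_comm p, smul_coe_vec_succ, smul_coe_vec_succ] at h1
    rw [← smul_coe_vec_succ hΔ p n j]
    refine Eq.trans ?_ h1
    exact (DistribSMul.toAddMonoidHom (Pt W) σ).map_nsmul p _
  have h2 := (smul_vec hΔ p n σ j).symm.trans key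
  have h3 := vec_bijective hΔ p n |>.1 (a₁ := ![levMat hΔ p n σ 0 j, levMat hΔ p n σ 1 j])
    (a₂ := ![c (levMat hΔ p (n + 1) σ 0 j), c (levMat hΔ p (n + 1) σ 1 j)]) h2
  have h4 := congrFun h3 i
  fin_cases i <;> simpa using h4.symm

theorem exists_tateMat : ∃ M : Γℚ →* Matrix (Fin 2) (Fin 2) ℤ_[p],
    ∀ n σ, (PadicInt.toZModPow n).mapMatrix (M σ) = levMat hΔ p n σ := by
  choose z hz using fun (σ : Γℚ) (i j : Fin 2) =>
    exists_padicInt_of_compat (fun n => levMat hΔ p n σ i j)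
      (fun n => congrFun (congrFun (levMat_compat hΔ p n σ) i) j)
  have hmap : ∀ n σ, (PadicInt.toZModPow n).mapMatrix (Matrix.of (z σ)) = levMat hΔ p n σ :=
    fun n σ => Matrix.ext fun i j => hz σ i j n
  have hext : ∀ A B : Matrix (Fin 2) (Fin 2) ℤ_[p],
      (∀ n, (PadicInt.toZModPow n).mapMatrix A = (PadicInt.toZModPow n).mapMatrix B) → A = B :=
    fun A B h => Matrix.ext fun i j =>
      PadicInt.ext_of_toZModPow.mp fun n => congrFun (congrFun (h n) i) j
  refine ⟨{ toFun := fun σ => Matrix.of (z σ)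
            map_one' := hext _ _ fun n => by rw [hmap, map_one, map_one]
            map_mul' := fun σ τ => hext _ _ fun n => by rw [hmap, map_mul, map_mul, hmap, hmap] },
    hmap⟩

/-- The matrix of the action on the Tate module. -/
def tateMat : Γℚ →* Matrix (Fin 2) (Fin 2) ℤ_[p] := (exists_tateMat hΔ p).choose

theorem toZModPow_tateMat (n : ℕ) (σ : Γℚ) :
    (PadicInt.toZModPow n).mapMatrix (tateMat hΔ p σ) = levMat hΔ p n σ :=
  (exists_tateMat hΔ p).choose_spec n σ

theorem mem_maximalIdeal_pow_iff (n : ℕ) (x : ℤ_[p]) :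
    x ∈ IsLocalRing.maximalIdeal ℤ_[p] ^ n ↔ PadicInt.toZModPow n x = 0 := by
  rw [PadicInt.maximalIdeal_eq_span_p, Ideal.span_singleton_pow, ← PadicInt.ker_toZModPow,
    RingHom.mem_ker]

theorem exists_field_tateMat (n : ℕ) :
    ∃ L : IntermediateField ℚ Qbar, FiniteDimensional ℚ L ∧
      ∀ σ : Γℚ, (∀ x ∈ L, σ x = x) →
        ∀ a b, (tateMat hΔ p σ - 1) a b ∈ IsLocalRing.maximalIdeal ℤ_[p] ^ n := by
  have := isElliptic_map hΔ
  have : Algebra.IsAlgebraic ℚ Qbar := AlgebraicClosure.isAlgebraic ℚ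
  obtain ⟨L, hL, hfix⟩ := FLTAgent.Torsion.exists_finiteDimensional_galoisRepModuleEnd_eq_one
    (K := Qbar) ℚ (W.map (Int.castRingHom ℚ)).toAffine (n := p ^ n) (pow_ne_zero n hp.out.ne_zero)
  refine ⟨L, hL, fun σ hσ a b => ?_⟩
  rw [mem_maximalIdeal_pow_iff]
  have h := toZModPow_tateMat hΔ p n σ
  have h1 : levMat hΔ p n σ = 1 := by
    rw [levMat, MonoidHom.comp_apply, show levRep W p n σ = 1 from hfix σ hσ, map_one]
  have h2 : (PadicInt.toZModPow n).mapMatrix (tateMat hΔ p σ - 1) = 0 := by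
    rw [map_sub, map_one, h, h1, sub_self]
  exact congrFun (congrFun h2 a) b

/-- The `p`-adic Tate module of `W`. -/
def tateRep : GaloisRepAdic ℤ_[p] :=
  FLTAgent.GalRep.adicOfMat (tateMat hΔ p) (exists_field_tateMat hΔ p)

theorem charpoly_tateRep (σ : Γℚ) :
    LinearMap.charpoly ((tateRep hΔ p).ρ σ) =
      X ^ 2 - C (tateMat hΔ p σ).trace * X + C (tateMat hΔ p σ).det :=
  FLTAgent.GalRep.charpoly_adicOfMat _ _ σ

theorem det_tateMat (σ : Γℚ) :
    (tateMat hΔ p σ).det = (FLTAgent.GalRep.cyclo p σ : ℤ_[p]) := by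
  refine PadicInt.ext_of_toZModPow.mp fun n => ?_
  have : NeZero (p ^ n) := ⟨pow_ne_zero n hp.out.ne_zero⟩
  have := isElliptic_map hΔ
  rw [RingHom.map_det, toZModPow_tateMat, levMat_apply, LinearMap.det_toMatrix,
    det_galoisRepModuleEnd_eq _ (cast_pow_ne_zero p n) σ
      ((FLTAgent.GalRep.cyclo p σ : ℤ_[p]).toZModPow n).val
      fun ζ hζ => FLTAgent.GalRep.cyclo_spec p σ hζ, ZMod.natCast_zmod_val]

theorem trace_tateMat_frobenius {l : ℕ} (hl : l.Prime) (hgood : W.IsGoodPrimeFor l) (hlp : l ≠ p)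
    (A : ValuationSubring Qbar) (hA : A.LiesOverPrime l) (σ : Γℚ) (hσ : A.IsFrobeniusAt σ l) :
    (tateMat hΔ p σ).trace = (W.apOfModel l : ℤ_[p]) := by
  refine PadicInt.ext_of_toZModPow.mp fun n => ?_
  have hln : ¬ l ∣ p ^ n := fun h =>
    hlp ((Nat.prime_dvd_prime_iff_eq hl hp.out).mp (hl.dvd_of_dvd_pow h))
  rw [show PadicInt.toZModPow n (tateMat hΔ p σ).trace =
      ((PadicInt.toZModPow n).mapMatrix (tateMat hΔ p σ)).trace from
    AddMonoidHom.map_trace (PadicInt.toZModPow n).toAddMonoidHom _]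
  rw [toZModPow_tateMat, levMat_apply, ← LinearMap.trace_eq_matrix_trace, map_intCast]
  exact trace_frobenius W (p ^ n) hl hgood hln A hA σ hσ

/-- The characteristic polynomial of Frobenius at a good prime on the Tate module. -/
theorem charpoly_frobenius {l : ℕ} (hl : l.Prime) (hgood : W.IsGoodPrimeFor l) (hlp : l ≠ p)
    (A : ValuationSubring Qbar) (hA : A.LiesOverPrime l) (σ : Γℚ) (hσ : A.IsFrobeniusAt σ l) :
    LinearMap.charpoly ((tateRep hΔ p).ρ σ) =
      X ^ 2 - C (W.apOfModel l : ℤ_[p]) * X + C (l : ℤ_[p]) := by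
  rw [charpoly_tateRep, det_tateMat, trace_tateMat_frobenius hΔ p hl hgood hlp A hA σ hσ,
    FLTAgent.GalRep.cyclo_frobenius (p := p) hl hlp hA hσ]

/-- The Tate module is unramified at good primes `q ≠ p`. -/
theorem isUnramifiedAt_of_good {q : ℕ} (hq : q.Prime) (hgood : W.IsGoodPrimeFor q) (hqp : q ≠ p) :
    (tateRep hΔ p).IsUnramifiedAt q := by
  refine FLTAgent.GalRep.isUnramifiedAt_adicOfMat _ _ q fun A hA σ hσ => ?_
  refine Matrix.ext fun i j => PadicInt.ext_of_toZModPow.mp fun n => ?_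
  have hqn : ¬ q ∣ p ^ n := fun h =>
    hqp ((Nat.prime_dvd_prime_iff_eq hq hp.out).mp (hq.dvd_of_dvd_pow h))
  have h1 : levRep W p n σ = 1 := LinearMap.ext fun x =>
    FLTAgent.Reduction.galoisRepUnramifiedAt_of_good W hq hgood hqn A hA σ hσ x
  have h2 : (PadicInt.toZModPow n).mapMatrix (tateMat hΔ p σ) =
      (PadicInt.toZModPow n).mapMatrix 1 := by
    rw [toZModPow_tateMat, levMat, MonoidHom.comp_apply, h1, map_one, map_one]
  exact congrFun (congrFun h2 i) j

theorem trace_eq_two_of_sq_eq_zero {R : Type*} [CommRing R] [IsDomain R]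
    (M : Matrix (Fin 2) (Fin 2) R) (h : (M - 1) * (M - 1) = 0) : M.trace = 2 ∧ M.det = 1 := by
  have key : ∀ N : Matrix (Fin 2) (Fin 2) R, N * N = 0 → N.trace = 0 ∧ N.det = 0 := by
    intro N hN
    have hd : N.det = 0 := by
      have := congrArg Matrix.det hN
      rw [Matrix.det_mul, Matrix.det_zero] at this
      exact mul_self_eq_zero.mp this
    refine ⟨mul_self_eq_zero.mp ?_, hd⟩
    have e := congrArg Matrix.trace hN
    rw [Matrix.det_fin_two] at hd
    simp only [Matrix.trace_fin_two, Matrix.mul_apply, Fin.sum_univ_two, Matrix.zero_apply] at e ⊢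
    linear_combination e + 2 * hd
  obtain ⟨ht, hd⟩ := key _ h
  simp only [Matrix.trace_fin_two, Matrix.det_fin_two, Matrix.sub_apply, Matrix.one_apply_eq,
    Matrix.one_apply_ne (zero_ne_one' (Fin 2)),
    Matrix.one_apply_ne (zero_ne_one' (Fin 2)).symm] at ht hd ⊢
  exact ⟨by linear_combination ht, by linear_combination hd + ht⟩

/-- Inertia away from `p` is unipotent on the Tate module of a semistable model. -/
theorem isUnipotentOnInertiaAt (hss : W.IsSemistableModel) {q : ℕ} (hq : q.Prime) (hqp : q ≠ p) :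
    (tateRep hΔ p).IsUnipotentOnInertiaAt q := by
  intro A hA σ hσ
  have hsq : (tateMat hΔ p σ - 1) * (tateMat hΔ p σ - 1) = 0 := by
    refine Matrix.ext fun i j => PadicInt.ext_of_toZModPow.mp fun n => ?_
    have hqn : ¬ q ∣ p ^ n := fun h =>
      hqp ((Nat.prime_dvd_prime_iff_eq hq hp.out).mp (hq.dvd_of_dvd_pow h))
    have h1 : (levRep W p n σ - 1) * (levRep W p n σ - 1) = 0 := by
      refine LinearMap.ext fun x => sub_eq_zero.mpr (Subtype.ext ?_)
      show σ • (σ • (x : Pt W) - (x : Pt W)) = σ • (x : Pt W) - (x : Pt W)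
      have hx : (p ^ n) • (x : Pt W) = 0 := by
        rw [← natCast_zsmul]; exact (Submodule.mem_torsionBy_iff _ _).mp x.2
      by_cases hbad : (q : ℤ) ∣ W.Δ
      · exact FLTAgent.Reduction.inertia_unipotent hA hq hΔ hbad (hss q hq hbad) hqn hσ hx
      · have e : σ • x = x :=
          FLTAgent.Reduction.galoisRepUnramifiedAt_of_good W hq hbad hqn A hA σ hσ x
        have e' : σ • (x : Pt W) = (x : Pt W) := congrArg Subtype.val e
        rw [e', sub_self]; exact smul_zero σ
    have h2 : (PadicInt.toZModPow n).mapMatrix ((tateMat hΔ p σ - 1) * (tateMat hΔ p σ - 1)) =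
        (PadicInt.toZModPow n).mapMatrix 0 := by
      rw [map_mul, map_sub, map_one, toZModPow_tateMat, map_zero, levMat, MonoidHom.comp_apply]
      simpa only [map_mul, map_sub, map_one, map_zero, MonoidHom.coe_coe] using
        congrArg (LinearMap.toMatrixAlgEquiv (levBasis hΔ p n)) h1
    exact congrFun (congrFun h2 i) j
  obtain ⟨ht, hd⟩ := trace_eq_two_of_sq_eq_zero _ hsq
  rw [charpoly_tateRep, ht, hd]
  simp only [map_ofNat, map_one]
  ring

end

end FLTAgent.Tate
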