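import Fermat.Agent.Torsion.Structure
import Fermat.Prelude.Def_EllipticCurve_FrobeniusTrace
import Fermat.Prelude.Def_FLTPrelim_Modularity
import Mathlib.FieldTheory.IsAlgClosed.AlgebraicClosure
import Mathlib.NumberTheory.Padics.RingHoms
import Mathlib.Algebra.Algebra.Rat

/-!
# Compatible bases of the `p`-power torsion
-/

set_option autoImplicit false

open scoped WeierstrassCurve.Affine
open WeierstrassCurve WeierstrassCurve.Affine

namespace FLTAgent.Tate

noncomputable section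

local notation "Qbar" => AlgebraicClosure ℚ
local notation "Γℚ" => AlgebraicClosure ℚ ≃ₐ[ℚ] AlgebraicClosure ℚ

/-- The algebraic points of the generic fibre of an integral model. -/
abbrev Pt (W : WeierstrassCurve ℤ) := ((W.map (Int.castRingHom ℚ)).toAffine⁄Qbar).Point

/-- The `p ^ n` torsion. -/
abbrev lev (W : WeierstrassCurve ℤ) (p n : ℕ) :=
  Submodule.torsionBy ℤ (Pt W) ((p ^ n : ℕ) : ℤ)

theorem isElliptic_map {W : WeierstrassCurve ℤ} (hΔ : W.Δ ≠ 0) :
    ((W.map (Int.castRingHom ℚ)).toAffine⁄Qbar).IsElliptic := by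
  refine ⟨?_⟩
  rw [isUnit_iff_ne_zero]
  show ((W.map (Int.castRingHom ℚ)).map (algebraMap ℚ Qbar)).Δ ≠ 0
  rw [WeierstrassCurve.map_Δ, WeierstrassCurve.map_Δ, eq_intCast, map_intCast, Int.cast_ne_zero]
  exact hΔ

theorem cast_pow_ne_zero (p : ℕ) [hp : Fact p.Prime] (n : ℕ) : ((p ^ n : ℕ) : Qbar) ≠ 0 :=
  Nat.cast_ne_zero.mpr (pow_ne_zero n hp.out.ne_zero)

variable {W : WeierstrassCurve ℤ} (hΔ : W.Δ ≠ 0) (p : ℕ) [hp : Fact p.Prime]

include hΔ

theorem exists_system : ∃ u : ℕ → Fin 2 → Pt W,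
    (∀ i, p • u 0 i = 0) ∧
    (∀ a b : ℤ, a • u 0 0 + b • u 0 1 = 0 → (p : ℤ) ∣ a ∧ (p : ℤ) ∣ b) ∧
    ∀ n i, p • u (n + 1) i = u n i := by
  have := isElliptic_map hΔ
  obtain ⟨e⟩ := FLTAgent.Torsion.nonempty_torsionBy_linearEquiv (K := Qbar)
    (W.map (Int.castRingHom ℚ)).toAffine p (Nat.cast_ne_zero.mpr hp.out.ne_zero)
  let b := Module.Basis.ofEquivFun e
  choose d hd using fun P : Pt W => FLTAgent.Torsion.zsmul_surjective (n := (p : ℤ))
    (W := ((W.map (Int.castRingHom ℚ)).toAffine⁄Qbar)) (Int.natCast_ne_zero.mpr hp.out.ne_zero) P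
  refine ⟨fun n i => d^[n] (b i).1, fun i => ?_, fun a c h => ?_, fun n i => ?_⟩
  · simp only [Function.iterate_zero_apply]
    rw [← natCast_zsmul]
    exact (Submodule.mem_torsionBy_iff _ _).mp (b i).2
  · have h2 : (a : ZMod p) • b 0 + (c : ZMod p) • b 1 = 0 := by
      rw [Int.cast_smul_eq_zsmul, Int.cast_smul_eq_zsmul]
      exact Subtype.ext h
    have key := fun j => congrArg (fun v => b.repr v j) h2
    constructor
    · simpa [ZMod.intCast_zmod_eq_zero_iff_dvd] using key 0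
    · simpa [ZMod.intCast_zmod_eq_zero_iff_dvd] using key 1
  · simp only [Function.iterate_succ_apply']
    rw [← natCast_zsmul]
    exact hd _

/-- A compatible system of `p`-power torsion points lifting a basis of `E[p]`. -/
def sys : ℕ → Fin 2 → Pt W := (exists_system hΔ p).choose

theorem sys_zero (i : Fin 2) : p • sys hΔ p 0 i = 0 := (exists_system hΔ p).choose_spec.1 i

theorem sys_indep {a b : ℤ} (h : a • sys hΔ p 0 0 + b • sys hΔ p 0 1 = 0) :
    (p : ℤ) ∣ a ∧ (p : ℤ) ∣ b := (exists_system hΔ p).choose_spec.2.1 a b h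

theorem smul_sys_succ (n : ℕ) (i : Fin 2) : p • sys hΔ p (n + 1) i = sys hΔ p n i :=
  (exists_system hΔ p).choose_spec.2.2 n i

theorem pow_smul_sys (n : ℕ) (i : Fin 2) : p ^ n • sys hΔ p n i = sys hΔ p 0 i := by
  induction n with
  | zero => rw [pow_zero, one_smul]
  | succ n ih => rw [pow_succ, mul_smul, smul_sys_succ, ih]

/-- The `n`th member, killed by `p ^ n`. -/
def vec (n : ℕ) (i : Fin 2) : lev W p n :=
  ⟨p • sys hΔ p n i, by
    rw [Submodule.mem_torsionBy_iff, natCast_zsmul, smul_comm, pow_smul_sys, sys_zero]⟩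

theorem coe_vec_succ (n : ℕ) (i : Fin 2) : (vec hΔ p (n + 1) i : Pt W) = sys hΔ p n i :=
  smul_sys_succ hΔ p n i

theorem smul_coe_vec_succ (n : ℕ) (i : Fin 2) :
    p • (vec hΔ p (n + 1) i : Pt W) = (vec hΔ p n i : Pt W) := by
  rw [coe_vec_succ]; rfl

theorem vec_indep (n : ℕ) {a b : ℤ}
    (h : a • (vec hΔ p n 0 : Pt W) + b • (vec hΔ p n 1 : Pt W) = 0) :
    ((p ^ n : ℕ) : ℤ) ∣ a ∧ ((p ^ n : ℕ) : ℤ) ∣ b := by
  induction n generalizing a b with
  | zero => simp
  | succ n ih =>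
    have h0 : a • sys hΔ p 0 0 + b • sys hΔ p 0 1 = 0 := by
      have h2 := congrArg (fun P : Pt W => p ^ n • P) h
      simp only [coe_vec_succ] at h2
      rw [nsmul_add, nsmul_zero, smul_comm, smul_comm (p ^ n) b, pow_smul_sys, pow_smul_sys] at h2
      exact h2
    obtain ⟨⟨a', rfl⟩, ⟨b', rfl⟩⟩ := sys_indep hΔ p h0
    have h3 : a' • (vec hΔ p n 0 : Pt W) + b' • (vec hΔ p n 1 : Pt W) = 0 := by
      rw [← smul_coe_vec_succ hΔ p n 0, ← smul_coe_vec_succ hΔ p n 1, ← natCast_zsmul,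
        ← natCast_zsmul, ← mul_zsmul, ← mul_zsmul, mul_comm a', mul_comm b']
      exact h
    obtain ⟨ha, hb⟩ := ih h3
    rw [pow_succ', Nat.cast_mul]
    exact ⟨mul_dvd_mul_left _ ha, mul_dvd_mul_left _ hb⟩

omit hΔ in
theorem coe_zmod_smul (n : ℕ) (c : ZMod (p ^ n)) (x : lev W p n) :
    ((c • x : lev W p n) : Pt W) = c.val • (x : Pt W) := by
  have : NeZero (p ^ n) := ⟨pow_ne_zero n hp.out.ne_zero⟩
  conv_lhs => rw [← ZMod.natCast_zmod_val c, Nat.cast_smul_eq_nsmul]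
  rfl

theorem vec_bijective (n : ℕ) : Function.Bijective
    (fun f : Fin 2 → ZMod (p ^ n) => f 0 • vec hΔ p n 0 + f 1 • vec hΔ p n 1) := by
  have := isElliptic_map hΔ
  have hne : NeZero (p ^ n) := ⟨pow_ne_zero n hp.out.ne_zero⟩
  have hcard : Nat.card (lev W p n) = (p ^ n) ^ 2 :=
    FLTAgent.Torsion.natCard_torsionBy_baseChange (W.map (Int.castRingHom ℚ)).toAffine (p ^ n)
      (cast_pow_ne_zero p n)
  have : Finite (lev W p n) := Nat.finite_of_card_ne_zero (by
    rw [hcard]; exact pow_ne_zero 2 (NeZero.ne _))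
  refine (Nat.bijective_iff_injective_and_card _).mpr ⟨fun f g hfg => ?_, ?_⟩
  · have h' : (f 0 - g 0) • vec hΔ p n 0 + (f 1 - g 1) • vec hΔ p n 1 = 0 := by
      have h2 := sub_eq_zero.mpr hfg
      rw [← h2]
      simp only [sub_smul]
      abel
    have h3 : ((f 0 - g 0).val : ℤ) • (vec hΔ p n 0 : Pt W) +
        ((f 1 - g 1).val : ℤ) • (vec hΔ p n 1 : Pt W) = 0 := by
      have h4 := congrArg Subtype.val h'
      rw [Submodule.coe_add, coe_zmod_smul, coe_zmod_smul] at h4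
      simpa only [natCast_zsmul, Submodule.coe_zero] using h4
    obtain ⟨h0, h1⟩ := vec_indep hΔ p n h3
    rw [Int.natCast_dvd_natCast, ← ZMod.natCast_eq_zero_iff, ZMod.natCast_zmod_val,
      sub_eq_zero] at h0 h1
    funext i; fin_cases i
    · exact h0
    · exact h1
  · rw [hcard, Nat.card_fun, Nat.card_fin, Nat.card_zmod]

/-- The basis of `E[p ^ n]` given by the compatible system. -/
def levBasis (n : ℕ) : Module.Basis (Fin 2) (ZMod (p ^ n)) (lev W p n) :=
  Module.Basis.ofEquivFun (LinearEquiv.ofBijective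
    ({ toFun := fun f : Fin 2 → ZMod (p ^ n) => f 0 • vec hΔ p n 0 + f 1 • vec hΔ p n 1
       map_add' := fun f g => by simp only [Pi.add_apply, add_smul]; abel
       map_smul' := fun c f => by simp only [Pi.smul_apply, smul_eq_mul, mul_smul, RingHom.id_apply,
        smul_add] } : (Fin 2 → ZMod (p ^ n)) →ₗ[ZMod (p ^ n)] lev W p n)
    (vec_bijective hΔ p n)).symm

theorem levBasis_apply (n : ℕ) (i : Fin 2) : levBasis hΔ p n i = vec hΔ p n i := by
  rw [levBasis, Module.Basis.coe_ofEquivFun, LinearEquiv.symm_symm]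
  show (Pi.single i 1 : Fin 2 → ZMod (p ^ n)) 0 • vec hΔ p n 0 +
    (Pi.single i 1 : Fin 2 → ZMod (p ^ n)) 1 • vec hΔ p n 1 = _
  fin_cases i <;> simp

end

end FLTAgent.Tate
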