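import Fermat.Agent.WeilPairing.OneSubFrobenius
import Mathlib.LinearAlgebra.Matrix.Determinant.Basic

/-!
# Determinants and traces on `E[n]` for an arbitrary `n` invertible in the base field
-/

set_option autoImplicit false
set_option linter.unusedSectionVars false

open scoped nonZeroDivisors WeierstrassCurve.Affine
open WeierstrassCurve WeierstrassCurve.Affine WeierstrassCurve.Affine.CoordinateRing
open FLTAgent.WeilPairing

namespace FLTAgent.Tate

noncomputable section

/-- In rank two the trace is `1 + det f - det (1 - f)`. -/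
theorem trace_eq_of_det {R V : Type*} [CommRing R] [AddCommGroup V] [Module R V]
    (b : Module.Basis (Fin 2) R V) (f : Module.End R V) :
    LinearMap.trace R V f = 1 + LinearMap.det f - LinearMap.det (1 - f) := by
  rw [LinearMap.trace_eq_matrix_trace R b, ← LinearMap.det_toMatrix b, ← LinearMap.det_toMatrix b,
    Matrix.trace_fin_two, Matrix.det_fin_two, Matrix.det_fin_two, map_sub, LinearMap.toMatrix_one]
  simp only [Matrix.sub_apply, Matrix.one_apply_eq, Matrix.one_apply_ne (zero_ne_one' (Fin 2)),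
    Matrix.one_apply_ne (zero_ne_one' (Fin 2)).symm]
  ring

variable {F k : Type*} [CommRing F] [Field k] [Algebra F k] {W' : Affine F} [IsAlgClosed k]
  [(W'⁄k).IsElliptic] [DecidableEq k] {n : ℕ}

/-- The torsion, seen from the pairing. -/
def toTorsN (x : Submodule.torsionBy ℤ (W'⁄k).Point (n : ℤ)) : Tors (W'⁄k) n :=
  ⟨(x : (W'⁄k).Point), x.2⟩

/-- The Weil pairing on `E[n]`. -/
def pairingN (hnk : (n : k) ≠ 0) (S T : Submodule.torsionBy ℤ (W'⁄k).Point (n : ℤ)) : k :=
  weilPairing (W := (W'⁄k)) hnk (toTorsN S) (toTorsN T)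

variable (hnk : (n : k) ≠ 0)

theorem pairingN_add_left (S S' T : Submodule.torsionBy ℤ (W'⁄k).Point (n : ℤ)) :
    pairingN hnk (S + S') T = pairingN hnk S T * pairingN hnk S' T :=
  weilPairing_add_left hnk (toTorsN S) (toTorsN S') (toTorsN T)

theorem pairingN_add_right (S T T' : Submodule.torsionBy ℤ (W'⁄k).Point (n : ℤ)) :
    pairingN hnk S (T + T') = pairingN hnk S T * pairingN hnk S T' :=
  weilPairing_add_right hnk (toTorsN S) (toTorsN T) (toTorsN T')

theorem pairingN_self (T : Submodule.torsionBy ℤ (W'⁄k).Point (n : ℤ)) : pairingN hnk T T = 1 :=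
  weilPairing_self hnk (toTorsN T)

theorem pairingN_swap (S T : Submodule.torsionBy ℤ (W'⁄k).Point (n : ℤ)) :
    pairingN hnk S T * pairingN hnk T S = 1 :=
  weilPairing_swap hnk (toTorsN S) (toTorsN T)

theorem pairingN_pow (S T : Submodule.torsionBy ℤ (W'⁄k).Point (n : ℤ)) :
    pairingN hnk S T ^ n = 1 :=
  weilPairing_pow hnk (toTorsN S) (toTorsN T)

theorem neZero_of_cast_ne_zero (hnk : (n : k) ≠ 0) : NeZero n :=
  ⟨fun h => hnk (by simp [h])⟩

theorem pairingN_smul_left (a : ZMod n) (S T : Submodule.torsionBy ℤ (W'⁄k).Point (n : ℤ)) :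
    pairingN hnk (a • S) T = pairingN hnk S T ^ a.val := by
  have := neZero_of_cast_ne_zero hnk
  conv_lhs => rw [← ZMod.natCast_zmod_val a, Nat.cast_smul_eq_nsmul]
  exact weilPairing_nsmul_left hnk a.val (toTorsN S) (toTorsN T)

theorem pairingN_smul_right (a : ZMod n) (S T : Submodule.torsionBy ℤ (W'⁄k).Point (n : ℤ)) :
    pairingN hnk S (a • T) = pairingN hnk S T ^ a.val := by
  have h1 := pairingN_swap hnk S (a • T)
  have h2 := congrArg (· ^ a.val) (pairingN_swap hnk S T)
  simp only [mul_pow, one_pow] at h2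
  rw [pairingN_smul_left] at h1
  exact mul_right_cancel₀ (pow_ne_zero _ (weilPairing_ne_zero hnk (toTorsN T) (toTorsN S)))
    (h1.trans h2.symm)

theorem pairingN_basis_orderOf (b : Module.Basis (Fin 2) (ZMod n)
    (Submodule.torsionBy ℤ (W'⁄k).Point (n : ℤ))) :
    orderOf (pairingN hnk (b 0) (b 1)) = n := by
  set ζ := pairingN hnk (b 0) (b 1) with hζ
  refine Nat.dvd_antisymm (orderOf_dvd_of_pow_eq_one (pairingN_pow hnk _ _)) ?_
  have hsum : ∀ S, S = b.repr S 0 • b 0 + b.repr S 1 • b 1 := fun S => by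
    conv_lhs => rw [← b.sum_repr S, Fin.sum_univ_two]
  have hT : ∀ S : Submodule.torsionBy ℤ (W'⁄k).Point (n : ℤ),
      pairingN hnk S ((orderOf ζ : ZMod n) • b 1) = 1 := by
    intro S
    have hpow : ζ ^ ((orderOf ζ : ZMod n)).val = 1 := by
      rw [← orderOf_dvd_iff_pow_eq_one, ZMod.val_natCast,
        Nat.dvd_mod_iff (orderOf_dvd_of_pow_eq_one (pairingN_pow hnk _ _))]
    rw [hsum S, pairingN_add_left, pairingN_smul_left, pairingN_smul_left, pairingN_smul_right,
      pairingN_smul_right, pairingN_self, ← hζ, hpow, one_pow, one_pow, one_mul, one_pow]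
  have h0 : (orderOf ζ : ZMod n) • b 1 = 0 := by
    have h := eq_zero_of_forall_weilPairing_eq_one hnk
      (T := toTorsN ((orderOf ζ : ZMod n) • b 1)) fun S => hT ⟨(S : (W'⁄k).Point), S.2⟩
    exact Subtype.ext (congrArg (fun t : Tors (W'⁄k) n => (t : (W'⁄k).Point)) h)
  have h1 := congrArg (fun v => b.repr v 1) h0
  simp only [map_smul, Finsupp.smul_apply, Module.Basis.repr_self, Finsupp.single_eq_same,
    smul_eq_mul, mul_one, map_zero, Finsupp.coe_zero, Pi.zero_apply] at h1
  exact (ZMod.natCast_eq_zero_iff _ _).mp h1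

theorem pow_eq_pow_iff_cast {ζ : k} (hζ : orderOf ζ = n) (hn : n ≠ 0) {a b : ℕ} :
    ζ ^ a = ζ ^ b ↔ (a : ZMod n) = b := by
  have hne : ζ ≠ 0 := by
    intro h
    have := pow_orderOf_eq_one ζ
    rw [hζ, h, zero_pow hn] at this
    exact zero_ne_one this
  have hord' : orderOf (Units.mk0 ζ hne) = n := by rw [← orderOf_units, Units.val_mk0, hζ]
  rw [ZMod.natCast_eq_natCast_iff', ← hord', ← pow_inj_mod, Units.ext_iff, Units.val_pow_eq_pow_val,
    Units.val_pow_eq_pow_val, Units.val_mk0]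

/-- An endomorphism of `E[n]` multiplying the pairing by the power `m` has determinant `m`. -/
theorem det_eq_of_pairingN
    (f : Module.End (ZMod n) (Submodule.torsionBy ℤ (W'⁄k).Point (n : ℤ))) (m : ℕ)
    (hf : ∀ S T, pairingN hnk (f S) (f T) = pairingN hnk S T ^ m) :
    LinearMap.det f = (m : ZMod n) := by
  obtain ⟨e⟩ := FLTAgent.Torsion.nonempty_torsionBy_linearEquiv W' n hnk
  let b : Module.Basis (Fin 2) (ZMod n) _ := Module.Basis.ofEquivFun e
  have hsum : ∀ S, S = b.repr S 0 • b 0 + b.repr S 1 • b 1 := fun S => by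
    conv_lhs => rw [← b.sum_repr S, Fin.sum_univ_two]
  set ζ := pairingN hnk (b 0) (b 1) with hζ
  have hord : orderOf ζ = n := pairingN_basis_orderOf hnk b
  have := neZero_of_cast_ne_zero hnk
  set M := LinearMap.toMatrix b b f with hM
  have hcol : ∀ j, f (b j) = M 0 j • b 0 + M 1 j • b 1 := fun j => by
    rw [hsum (f (b j)), hM, LinearMap.toMatrix_apply, LinearMap.toMatrix_apply]
  have hswap : pairingN hnk (b 1) (b 0) * ζ = 1 := pairingN_swap hnk _ _
  have key := hf (b 0) (b 1)
  rw [hcol, hcol, pairingN_add_left, pairingN_add_right, pairingN_add_right, pairingN_smul_left,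
    pairingN_smul_left, pairingN_smul_left, pairingN_smul_left, pairingN_smul_right,
    pairingN_smul_right, pairingN_smul_right, pairingN_smul_right, pairingN_self, pairingN_self,
    ← hζ] at key
  simp only [one_pow, one_mul, mul_one, ← pow_mul] at key
  have h2 : (pairingN hnk (b 1) (b 0)) ^ ((M 0 1).val * (M 1 0).val) *
      ζ ^ ((M 0 1).val * (M 1 0).val) = 1 := by rw [← mul_pow, hswap, one_pow]
  have key2 : ζ ^ ((M 1 1).val * (M 0 0).val) = ζ ^ (m + (M 0 1).val * (M 1 0).val) := by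
    rw [pow_add, ← key, mul_assoc, h2, mul_one]
  rw [pow_eq_pow_iff_cast hord (NeZero.ne n)] at key2
  simp only [Nat.cast_add, Nat.cast_mul, ZMod.natCast_zmod_val] at key2
  rw [← LinearMap.det_toMatrix b, ← hM, Matrix.det_fin_two]
  linear_combination key2

end

section Galois

variable {F k : Type*} [Field F] [Field k] [Algebra F k] [IsAlgClosed k] [DecidableEq k]
  (W : Affine F) [(W⁄k).IsElliptic] {n : ℕ}

/-- An automorphism raising the `n`-th roots of unity to the power `m` has determinant `m` on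
`E[n]`. -/
theorem det_galoisRepModuleEnd_eq (hnk : (n : k) ≠ 0) (σ : k ≃ₐ[F] k) (m : ℕ)
    (hm : ∀ ζ : k, ζ ^ n = 1 → σ ζ = ζ ^ m) :
    LinearMap.det (Point.galoisRepModuleEnd (S := F) (K := k) W n σ) = (m : ZMod n) := by
  refine det_eq_of_pairingN hnk _ m fun S T => ?_
  rw [← hm _ (pairingN_pow hnk S T)]
  exact weilPairing_map (W' := W) hnk σ (toTorsN S) (toTorsN T)

end Galois

section Frobenius

variable {F k : Type*} [Field F] [Fintype F] [DecidableEq F] [Field k] [Algebra F k] [IsAlgClosed k]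
  [DecidableEq k] {W' : Affine F} [(W'⁄k).IsElliptic] {n : ℕ}

theorem weilPairing_oneSubFrobN (hnk : (n : k) ≠ 0) (S T : Tors (W'⁄k) n)
    (hS : oneSubFrob W' (S : (W'⁄k).Point) ∈ Tors (W'⁄k) n)
    (hT : oneSubFrob W' (T : (W'⁄k).Point) ∈ Tors (W'⁄k) n) :
    weilPairing hnk (⟨_, hS⟩ : Tors (W'⁄k) n) ⟨_, hT⟩ =
      weilPairing hnk S T ^ Nat.card (W'⁄F).Point := by
  classical
  set ψ := oneSubFrob (k := k) W'
  set Ψ := oneSubFrobPullback (k := k) W'
  obtain ⟨P, g, hP, hg, ho, h⟩ := exists_weilFun hnk T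
  have hpsiT : (n : ℤ) • ψ P = ψ (T : (W'⁄k).Point) := by rw [← map_zsmul, hP]
  obtain ⟨g₁, hg₁, ho₁⟩ := exists_ord_eq_orbitDiv hnk (P := ψ P)
    (by rw [hpsiT, ← map_zsmul, tors_smul, map_zero])
  have hg₁' : Ψ g₁ ≠ 0 := (map_ne_zero_iff _ Ψ.injective).mpr hg₁
  obtain ⟨c, hc⟩ : ∃ c, translate (ψ (S : (W'⁄k).Point)) g₁ = const (W'⁄k) c * g₁ :=
    ⟨_, (exists_weilConst hnk (⟨_, hS⟩ : Tors (W'⁄k) n) ⟨_, hT⟩).choose_spec _ g₁ hpsiT hg₁ ho₁⟩
  rw [weilPairing_eq hnk (S := (⟨_, hS⟩ : Tors (W'⁄k) n)) (T := ⟨_, hT⟩) hpsiT hg₁ ho₁ hc]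
  have : Finite (W'⁄F).Point := by
    refine Finite.of_injective
      (fun P : (W'⁄F).Point => match P with
        | .zero => (none : Option (F × F))
        | .some x y _ => Option.some (x, y)) ?_
    rintro (_ | _) (_ | _) he <;> simp_all
  have : Finite ψ.ker := Nat.finite_of_card_ne_zero (by
    rw [card_ker_oneSubFrob]; exact (Nat.card_pos (α := (W'⁄F).Point)).ne')
  let _ : Fintype ψ.ker := Fintype.ofFinite _
  let z : ψ.ker → (W'⁄k).Point := fun u => divPt hnk (u : (W'⁄k).Point)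
  have hz : ∀ u, (n : ℤ) • z u = u := fun u => zsmul_divPt hnk _
  let G := ∏ u : ψ.ker, translate (-z u) g
  have hG : G ≠ 0 := Finset.prod_ne_zero_iff.mpr fun u _ => translate_ne_zero _ hg
  obtain ⟨d, hd0, hd⟩ := exists_const_mul_of_ord_eq hg₁' hG fun Q => by
    rw [ord_oneSubFrobPullback, ho₁, orbitDiv_apply, hpsiT, ord_prod Q _ _
      (fun u _ => translate_ne_zero _ hg)]
    simp only [ord_translate, ho, orbitDiv_apply, zsmul_add, zsmul_neg, hz, hP,
      Finset.sum_sub_distrib]
    have key : ∀ A : (W'⁄k).Point, (∑ u : ψ.ker,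
        if (n : ℤ) • Q + -(u : (W'⁄k).Point) = A then (1 : ℤ) else 0) =
          if (n : ℤ) • ψ Q = ψ A then 1 else 0 := by
      intro A
      have hiff : ∀ u : ψ.ker, (n : ℤ) • Q + -(u : (W'⁄k).Point) = A ↔
          (u : (W'⁄k).Point) = (n : ℤ) • Q - A := fun u => by
        rw [← sub_eq_add_neg, sub_eq_iff_eq_add, eq_sub_iff_add_eq, eq_comm,
          add_comm (u : (W'⁄k).Point) A]
      simp only [hiff]
      by_cases hA : (n : ℤ) • ψ Q = ψ A
      · have hmem : (n : ℤ) • Q - A ∈ ψ.ker := by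
          rw [AddMonoidHom.mem_ker, map_sub, map_zsmul, hA, sub_self]
        rw [if_pos hA, Finset.sum_eq_single ⟨_, hmem⟩ (fun b _ hb => if_neg fun e => hb (Subtype.ext e))
          (fun he => absurd (Finset.mem_univ _) he), if_pos rfl]
      · rw [if_neg hA, Finset.sum_eq_zero fun u _ => if_neg fun e => hA ?_]
        rw [← sub_eq_zero, ← map_zsmul, ← map_sub, ← e]
        exact u.2
    rw [key, key, map_zero]
  have hGS : translate (S : (W'⁄k).Point) G =
      const (W'⁄k) (weilPairing hnk S T ^ Nat.card (W'⁄F).Point) * G := by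
    rw [map_prod, Finset.prod_congr rfl (g := fun u =>
      const (W'⁄k) (weilPairing hnk S T) * translate (-z u) g) (fun u _ => by
        rw [WeilPairing.translate_translate, add_comm, ← WeilPairing.translate_translate, h S, map_mul, translate_const]),
      Finset.prod_mul_distrib, Finset.prod_const, Finset.card_univ, ← Nat.card_eq_fintype_card,
      card_ker_oneSubFrob, map_pow]
  have h1 := translate_oneSubFrobPullback (S : (W'⁄k).Point) g₁
  rw [hc, map_mul, hd, map_mul, translate_const, hGS,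
    show Ψ (const (W'⁄k) c) = const (W'⁄k) c from by
      rw [← algebraMap_functionField]; exact Ψ.commutes c, ← mul_assoc, ← mul_assoc] at h1
  have h2 := mul_right_cancel₀ hG h1
  rw [mul_comm (const (W'⁄k) c)] at h2
  exact (const_injective _ (mul_left_cancel₀
    ((map_ne_zero_iff _ (const_injective _)).mpr hd0) h2)).symm

/-- The trace of Frobenius on `E[n]` over a finite field. -/
theorem trace_frobenius_finiteFieldN (hnk : (n : k) ≠ 0) (σ : k ≃ₐ[F] k)
    (hσ : ∀ x : k, σ x = x ^ Fintype.card F) :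
    LinearMap.trace (ZMod n) _ (Point.galoisRepModuleEnd (S := F) (K := k) W' n σ) =
      (Fintype.card F : ZMod n) + 1 - (Nat.card (W'⁄F).Point : ZMod n) := by
  obtain ⟨e⟩ := FLTAgent.Torsion.nonempty_torsionBy_linearEquiv W' (K := k) n hnk
  rw [trace_eq_of_det (Module.Basis.ofEquivFun e),
    det_galoisRepModuleEnd_eq W' hnk σ _ fun ζ _ => hσ ζ,
    det_eq_of_pairingN hnk _ (Nat.card (W'⁄F).Point) fun S T => ?_]
  · ring
  · have hpt : ∀ R : Submodule.torsionBy ℤ (W'⁄k).Point (n : ℤ),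
        (((1 - Point.galoisRepModuleEnd F W' n σ : Module.End (ZMod n) _) R :
          Submodule.torsionBy ℤ (W'⁄k).Point (n : ℤ)) : (W'⁄k).Point) =
          oneSubFrob W' (R : (W'⁄k).Point) := by
      intro R
      show (R : (W'⁄k).Point) - σ • (R : (W'⁄k).Point) = _
      rw [oneSubFrob_apply, frobPt,
        ← show σ.toAlgHom = FiniteField.frobeniusAlgHom F k from AlgHom.ext fun x => hσ x]
      rfl
    have hmem : ∀ R : Submodule.torsionBy ℤ (W'⁄k).Point (n : ℤ),
        oneSubFrob W' (R : (W'⁄k).Point) ∈ Tors (W'⁄k) n := fun R => by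
      rw [← hpt]; exact (_ : Submodule.torsionBy ℤ (W'⁄k).Point (n : ℤ)).2
    refine Eq.trans ?_ (weilPairing_oneSubFrobN hnk (toTorsN S) (toTorsN T) (hmem S) (hmem T))
    show weilPairing hnk _ _ = _
    congr 1 <;> exact Subtype.ext (hpt _)

end Frobenius

end FLTAgent.Tate
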